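import Fermat.Agent.Degen.HeckeEq
import Fermat.Agent.BadRed.Conc5
import Fermat.Agent.ZLoc2.Conc
import Fermat.Agent.HeckeRed.Degen
import Fermat.Agent.LLc.RatQb

/-!
# Pull-back of divisors from `X₀(N r)` to `X₀(M r)`, `N ∣ M`
-/

set_option autoImplicit false
set_option linter.unusedSectionVars false
set_option maxHeartbeats 1000000

noncomputable section

open AlgebraicCurve Module IntermediateField ModularCurve HahnSeries


namespace Fermat.Agent.LP3

open Fermat.Agent.BadRed Fermat.Agent.Degen Fermat.Agent.ModDeg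
open Fermat.Agent.FunField Fermat.Agent.FunField.PlaceLemmas
open Fermat.Agent.Igusa Fermat.Agent.AtkinLehner Fermat.Agent.HeckeRed
open Fermat.Agent.ZLoc2 (IsCoef)

section Gen

variable {L : Type*} [Field L] [IsAlgClosed L] [CharZero L] (N M r : ℕ) [hr : Fact r.Prime]
  [hN : NeZero N] [hM : NeZero M] (hrN : ¬ r ∣ N) (hrM : ¬ r ∣ M) (hNM : N ∣ M)

include hNM in
/-- (a) the Atkin–Lehner involutions are compatible with the inclusion. -/
theorem intertwines_ww (δ : modularFunctionFieldFullC L (N * r) →ₐ[L]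
      modularFunctionFieldFullC L (M * r)) (hδ : ∀ x, (δ x : LaurentSeries L) = x) :
    SemilinearAut.IntertwinesAlong δ.toRingHom (SemilinearAut.ofAlgAut (ww L N r hrN))
      (SemilinearAut.ofAlgAut (ww L M r hrM)) := by
  intro x
  apply Subtype.ext
  show ((ww L M r hrM (δ x) : modularFunctionFieldFullC L (M * r)) : LaurentSeries L) =
    (δ (ww L N r hrN x) : LaurentSeries L)
  have h1 := w_dg (K := L) (M := M) (ℓ := r) (N := N) (d := 1) (cast_ne_zero_L L M)
    (cast_ne_zero_Lr L r) hrM (by rwa [mul_one]) (cast_ne_zero_L L N) hrN x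
    (by rw [qExpand_one_apply, ← hδ x]; exact (δ x).2)
  rw [hδ, ← qExpand_one_apply (ww L N r hrN x : LaurentSeries L)]
  refine Eq.trans ?_ h1
  refine congrArg (fun z : modularFunctionFieldFullC L (M * r) =>
    ((ww L M r hrM z : modularFunctionFieldFullC L (M * r)) : LaurentSeries L)) ?_
  exact Subtype.ext ((hδ x).trans (qExpand_one_apply _).symm)

include hNM in
/-- **[P](a)** -/
theorem ww_smul_pull (δ : modularFunctionFieldFullC L (N * r) →ₐ[L]
      modularFunctionFieldFullC L (M * r)) (hδ : ∀ x, (δ x : LaurentSeries L) = x)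
    (D : Divisor L (modularFunctionFieldFullC L (N * r))) :
    SemilinearAut.ofAlgAut (ww L M r hrM) • pull δ D =
      pull δ (SemilinearAut.ofAlgAut (ww L N r hrN) • D) :=
  (pull_smul δ (intertwines_ww N M r hrN hrM hNM δ hδ) D).symm

include hrM hNM in
/-- **[P](b)** -/
theorem push_alpha1_pull (δ : modularFunctionFieldFullC L (N * r) →ₐ[L]
      modularFunctionFieldFullC L (M * r)) (hδ : ∀ x, (δ x : LaurentSeries L) = x)
    (δ₀ : modularFunctionFieldFullC L N →ₐ[L] modularFunctionFieldFullC L M)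
    (hδ₀ : ∀ x, (δ₀ x : LaurentSeries L) = x)
    (D : Divisor L (modularFunctionFieldFullC L (N * r))) :
    push (alpha1 L M r) (pull δ D) = pull δ₀ (push (alpha1 L N r) D) := by
  have hrN : ¬ r ∣ N := fun h => hrM (h.trans hNM)
  have hsq : (alpha1 L M r).comp δ₀ = δ.comp (alpha1 L N r) := by
    refine AlgHom.ext fun y => Subtype.ext ?_
    show ((alpha1 L M r (δ₀ y) : modularFunctionFieldFullC L (M * r)) : LaurentSeries L) =
      (δ (alpha1 L N r y) : modularFunctionFieldFullC L (M * r))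
    rw [coe_alpha1, hδ₀, hδ, coe_alpha1]
  refine (pull_push_of_norm (alpha1 L N r) δ₀ (alpha1 L M r) δ hsq (fun f _ =>
    normAlong_baseChange (alpha1 L N r) δ₀ (alpha1 L M r) δ hsq ?_ ?_ f) D).symm
  · intro S h1 h2
    refine gen_alpha' (K := L) (M := M) (ℓ := r) (N := N) (d := 1) (cast_ne_zero_L L M)
      (cast_ne_zero_Lr L r) hrM (by rwa [mul_one]) S ?_ ?_
    · intro y hy h
      have e : (⟨y, h⟩ : modularFunctionFieldFullC L (M * r)) = alpha1 L M r ⟨y, hy⟩ :=
        Subtype.ext (coe_alpha1 L M r ⟨y, hy⟩).symm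
      rw [e]
      exact h1 _
    · intro y hy h
      have e : (⟨_, h⟩ : modularFunctionFieldFullC L (M * r)) = δ ⟨y, hy⟩ :=
        Subtype.ext ((qExpand_one_apply y).trans (hδ ⟨y, hy⟩).symm)
      rw [e]
      exact h2 _
  · rw [finrankAlong_alpha_eq (cast_ne_zero_L L M) (cast_ne_zero_Lr L r) hrM rfl rfl
      (alpha1 L M r) (coe_alpha1 L M r),
      finrankAlong_alpha_eq (cast_ne_zero_L L N) (cast_ne_zero_Lr L r) hrN rfl rfl
      (alpha1 L N r) (coe_alpha1 L N r)]

/-- **[P](c)**, for two given coefficientwise automorphisms. -/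
theorem smul_pull {E E' : IntermediateField L (LaurentSeries L)} [IsFF L E] [IsFF L E']
    (δ : E →ₐ[L] E') (hδ : ∀ x, (δ x : LaurentSeries L) = x) {σ : L →+* L}
    {g : SemilinearAut L E} {g' : SemilinearAut L E'} (hg : IsCoef g σ) (hg' : IsCoef g' σ)
    (D : Divisor L E) : g' • pull δ D = pull δ (g • D) := by
  refine (pull_smul δ (g := g) (g' := g') (fun x => Subtype.ext ?_) D).symm
  show ((g' • δ x : E') : LaurentSeries L) = (δ (g • x) : E')
  rw [hg', hδ, hδ, hg]

end Gen

section Qbar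

local notation "Qb" => AlgebraicClosure ℚ
local notation "GQ" => (AlgebraicClosure ℚ ≃ₐ[ℚ] AlgebraicClosure ℚ)

/-- existence of coefficientwise automorphisms -/
theorem exists_isCoef {M : ℕ} {E : IntermediateField Qb (LaurentSeries Qb)}
    (hE : E = modularFunctionFieldFullC Qb M) (σ : GQ) :
    ∃ g : SemilinearAut Qb E, IsCoef g (σ : Qb →+* Qb) := by
  have h1 : E = laurentBaseChange Qb (modularFunctionFieldFull M) := by
    rw [hE, HeckeRed.laurentBaseChange_full]
  subst h1
  exact ⟨arithmeticGalois (modularFunctionFieldFull M) σ, fun x => coe_arithmeticGalois_smul _ σ x⟩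

/-- **[P](c)** -/
theorem exists_smul_pull {N' : ℕ} {E E' : IntermediateField Qb (LaurentSeries Qb)} [IsFF Qb E]
    [IsFF Qb E'] (hE : E = modularFunctionFieldFullC Qb N') (δ : E →ₐ[Qb] E')
    (hδ : ∀ x, (δ x : LaurentSeries Qb) = x) (s : GQ) {g' : SemilinearAut Qb E'}
    (hg' : IsCoef g' (s : Qb →+* Qb)) :
    ∃ g : SemilinearAut Qb E, IsCoef g (s : Qb →+* Qb) ∧
      ∀ D : Divisor Qb E, g' • pull δ D = pull δ (g • D) := by
  obtain ⟨g, hg⟩ := exists_isCoef hE s
  exact ⟨g, hg, fun D => smul_pull δ hδ hg hg' D⟩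

end Qbar

end Fermat.Agent.LP3
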